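import Mathlib.NumberTheory.FLT.Basic
import Mathlib.NumberTheory.FLT.Three
import Mathlib.NumberTheory.FLT.Four
import Fermat.Prelude.Def_FLTPrelim_FreyPackage

/-!
Root wiring for S01 (helper91): Fermat's Last Theorem in the elementary form of S01 follows from
* the statement of S02 (a counterexample for a prime `p ≥ 5` gives a Frey package),
* the statement of S03 (there is no Frey package),
* Mathlib's `fermatLastTheoremThree` and `fermatLastTheoremFour`.

Both S02 and S03 enter as hypotheses here, so this file does not depend on any other agent file.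
-/

set_option autoImplicit false

namespace Fermat.Agent.S01.helper91

/-- Fermat's Last Theorem for prime exponents `p ≥ 5` over `ℤ`, from S02 + S03. -/
theorem flt_int_of_frey
    (h02 : ∀ (a b c : ℤ), a ≠ 0 → b ≠ 0 → c ≠ 0 → ∀ (p : ℕ), p.Prime → 5 ≤ p →
      a ^ p + b ^ p = c ^ p → Nonempty FreyPackage)
    (h03 : FreyPackage → False)
    (p : ℕ) (pp : p.Prime) (hp5 : 5 ≤ p) : FermatLastTheoremWith ℤ p := by
  intro a b c ha hb hc H
  obtain ⟨P⟩ := h02 a b c ha hb hc p pp hp5 H
  exact h03 P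

/-- Fermat's Last Theorem for odd prime exponents, from S02 + S03 + Mathlib's `n = 3`. -/
theorem flt_for_odd_prime_of_frey
    (h02 : ∀ (a b c : ℤ), a ≠ 0 → b ≠ 0 → c ≠ 0 → ∀ (p : ℕ), p.Prime → 5 ≤ p →
      a ^ p + b ^ p = c ^ p → Nonempty FreyPackage)
    (h03 : FreyPackage → False)
    (p : ℕ) (pp : p.Prime) (hodd : Odd p) : FermatLastTheoremFor p := by
  rcases Nat.lt_or_ge p 5 with hlt | hge
  · have h2 : 2 ≤ p := pp.two_le
    have hp3 : p = 3 := by
      rcases hodd with ⟨k, hk⟩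
      have h4 : p ≠ 4 := by omega
      omega
    subst hp3
    exact fermatLastTheoremThree
  · exact fermatLastTheoremFor_iff_int.mpr (flt_int_of_frey h02 h03 p pp hge)

/-- Mathlib's `FermatLastTheorem`, from S02 + S03. -/
theorem fermatLastTheorem_of_frey
    (h02 : ∀ (a b c : ℤ), a ≠ 0 → b ≠ 0 → c ≠ 0 → ∀ (p : ℕ), p.Prime → 5 ≤ p →
      a ^ p + b ^ p = c ^ p → Nonempty FreyPackage)
    (h03 : FreyPackage → False) : FermatLastTheorem :=
  FermatLastTheorem.of_odd_primes (flt_for_odd_prime_of_frey h02 h03)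

/-- The S01 statement, from S02 + S03. -/
theorem s01_of_frey
    (h02 : ∀ (a b c : ℤ), a ≠ 0 → b ≠ 0 → c ≠ 0 → ∀ (p : ℕ), p.Prime → 5 ≤ p →
      a ^ p + b ^ p = c ^ p → Nonempty FreyPackage)
    (h03 : FreyPackage → False)
    (n : ℕ) (hn : 3 ≤ n) (a b c : ℕ) (ha : 0 < a) (hb : 0 < b) (hc : 0 < c) :
    a ^ n + b ^ n ≠ c ^ n :=
  fermatLastTheorem_of_frey h02 h03 n hn a b c ha.ne' hb.ne' hc.ne'

end Fermat.Agent.S01.helper91
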